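import Fermat.Agent.Kummer.UnitsData

set_option autoImplicit false

/-!
Kummer's lemma for `p = 5, 7, 11, 13`: a unit of `ℤ[ζ_p]` congruent to a rational integer modulo
`p` is a `p`-th power of a unit.
-/

namespace Fermat.Agent.KummerUnits

open NumberField

variable {K : Type*} [Field K] [NumberField K]

theorem kummer_lemma {p : ℕ} [hpf : Fact p.Prime] (hp : p = 5 ∨ p = 7 ∨ p = 11 ∨ p = 13)
    [IsCyclotomicExtension {p} ℚ K] (w : (𝓞 K)ˣ)
    (hw : ∃ n : ℤ, (p : 𝓞 K) ∣ (w : 𝓞 K) - n) : ∃ v : (𝓞 K)ˣ, w = v ^ p := by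
  have hζ := IsCyclotomicExtension.zeta_spec p ℚ K
  rcases hp with rfl | rfl | rfl | rfl
  · exact (echelon_5 hζ).kummer (by norm_num) w hw
  · exact (echelon_7 hζ).kummer (by norm_num) w hw
  · exact (echelon_11 hζ).kummer (by norm_num) w hw
  · exact (echelon_13 hζ).kummer (by norm_num) w hw

end Fermat.Agent.KummerUnits
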