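import Fermat.Agent.Kummer.PIDSmall

set_option autoImplicit false

/-!
The rings of integers of the cyclotomic fields `ℚ(ζ_7)`, `ℚ(ζ_11)`, `ℚ(ζ_13)` are principal.
-/

namespace Fermat.Agent.KummerPID

open NumberField Polynomial Ideal RingOfIntegers UniqueFactorizationMonoid
open NumberField.InfinitePlace Nat Real

variable (K : Type*) [Field K] [NumberField K]

/-- The Minkowski bound of `ℚ(ζ_p)`, `p` an odd prime, in explicit form. -/
theorem minkowski_eq (p : ℕ) [hp : Fact p.Prime] [IsCyclotomicExtension {p} ℚ K] :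
    (4 / π) ^ nrComplexPlaces K * ((Module.finrank ℚ K)! / (Module.finrank ℚ K) ^
      (Module.finrank ℚ K) * √|(discr K : ℝ)|) =
    (4 / π) ^ ((p - 1) / 2) * ((p - 1)! / ((p - 1 : ℕ) : ℝ) ^ (p - 1) * √((p : ℝ) ^ (p - 2))) := by
  rw [IsCyclotomicExtension.Rat.discr_prime p K, IsCyclotomicExtension.finrank (n := p) K
    (cyclotomic.irreducible_rat hp.out.pos),
    IsCyclotomicExtension.Rat.nrComplexPlaces_eq_totient_div_two p, totient_prime hp.out]
  congr 3
  push_cast
  rw [abs_mul, abs_pow, abs_neg, abs_one, one_pow, one_mul, abs_of_nonneg (by positivity)]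

theorem zeta_principal (p : ℕ) [hp : Fact p.Prime] [hK : IsCyclotomicExtension {p} ℚ K] :
    ∃ P ∈ primesOver (span {(p : ℤ)}) (𝓞 K), Submodule.IsPrincipal P := by
  have hζ := IsCyclotomicExtension.zeta_spec p ℚ K
  refine ⟨span {hζ.toInteger - 1}, ⟨?_, ?_⟩, ⟨_, rfl⟩⟩
  · exact IsCyclotomicExtension.Rat.isPrime_span_zeta_sub_one' p hζ
  · have := IsCyclotomicExtension.Rat.isPrime_span_zeta_sub_one' p hζ
    rw [liesOver_iff]
    refine IsMaximal.eq_of_le (Int.ideal_span_isMaximal_of_prime p) IsPrime.ne_top' ?_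
    rw [span_singleton_le_iff_mem, mem_comap, algebraMap_int_eq, map_natCast,
      mem_span_singleton]
    exact_mod_cast (IsCyclotomicExtension.Rat.zeta_sub_one_dvd_intCast_iff' p hζ
      (n := (p : ℤ))).mpr dvd_rfl

theorem seven_pid [IsCyclotomicExtension {7} ℚ K] : IsPrincipalIdealRing (𝓞 K) := by
  have := IsCyclotomicExtension.isGalois {7} ℚ K
  apply isPrincipalIdealRing_of_isPrincipal_of_lt_or_isPrincipal_of_mem_primesOver_of_mem_Icc
  have hM : ⌊(4 / π) ^ nrComplexPlaces K * ((Module.finrank ℚ K)! / (Module.finrank ℚ K) ^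
      (Module.finrank ℚ K) * √|(discr K : ℝ)|)⌋₊ < 5 := by
    rw [minkowski_eq K 7, Nat.floor_lt (by positivity)]
    have h1 : √((7 : ℝ) ^ (7 - 2)) ≤ 130 := by
      rw [Real.sqrt_le_left (by norm_num)]; norm_num
    have h2 : (4 / π) ≤ 4 / 3.14 := by
      gcongr
      exact pi_gt_d2.le
    calc _ ≤ (4 / 3.14 : ℝ) ^ ((7 - 1) / 2) * ((7 - 1)! / ((7 - 1 : ℕ) : ℝ) ^ (7 - 1) * 130) := by
          gcongr
          exact_mod_cast h1
      _ < _ := by norm_num [Nat.factorial]
  generalize ⌊(4 / π) ^ nrComplexPlaces K * ((Module.finrank ℚ K)! / (Module.finrank ℚ K) ^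
      (Module.finrank ℚ K) * √|(discr K : ℝ)|)⌋₊ = M at hM
  intro ℓ hℓ hp
  rw [Finset.mem_Icc] at hℓ
  have h5 : ℓ < 5 := hℓ.2.trans_lt hM
  obtain ⟨P, hP, h⟩ := lt_pow_inertiaDeg (K := K) (n := 7) hp
    (by intro h; have := (Nat.prime_dvd_prime_iff_eq hp (by norm_num)).mp h; omega) 2 5
    (by interval_cases ℓ <;> first | (exfalso; revert hp; norm_num; done) | decide)
    (by
      have := hp.two_le
      calc 5 < 2 ^ 3 := by norm_num
        _ ≤ ℓ ^ 3 := Nat.pow_le_pow_left this 3)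
  exact ⟨P, hP, Or.inl (hM.trans h)⟩

theorem eleven_pid [IsCyclotomicExtension {11} ℚ K] : IsPrincipalIdealRing (𝓞 K) := by
  have := IsCyclotomicExtension.isGalois {11} ℚ K
  apply isPrincipalIdealRing_of_isPrincipal_of_lt_or_isPrincipal_of_mem_primesOver_of_mem_Icc
  have hM : ⌊(4 / π) ^ nrComplexPlaces K * ((Module.finrank ℚ K)! / (Module.finrank ℚ K) ^
      (Module.finrank ℚ K) * √|(discr K : ℝ)|)⌋₊ < 60 := by
    rw [minkowski_eq K 11, Nat.floor_lt (by positivity)]
    have h1 : √((11 : ℝ) ^ (11 - 2)) ≤ 48559 := by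
      rw [Real.sqrt_le_left (by norm_num)]; norm_num
    have h2 : (4 / π) ≤ 4 / 3.14 := by
      gcongr
      exact pi_gt_d2.le
    calc _ ≤ (4 / 3.14 : ℝ) ^ ((11 - 1) / 2) *
          ((11 - 1)! / ((11 - 1 : ℕ) : ℝ) ^ (11 - 1) * 48559) := by
          gcongr
          exact_mod_cast h1
      _ < _ := by norm_num [Nat.factorial]
  generalize ⌊(4 / π) ^ nrComplexPlaces K * ((Module.finrank ℚ K)! / (Module.finrank ℚ K) ^
      (Module.finrank ℚ K) * √|(discr K : ℝ)|)⌋₊ = M at hM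
  intro ℓ hℓ hp
  rw [Finset.mem_Icc] at hℓ
  have h5 : ℓ < 60 := hℓ.2.trans_lt hM
  by_cases h11 : ℓ = 11
  · subst h11
    obtain ⟨P, hP, h⟩ := zeta_principal K 11
    exact ⟨P, hP, Or.inr h⟩
  have hn : ¬ ℓ ∣ 11 := fun h => h11 ((Nat.prime_dvd_prime_iff_eq hp (by norm_num)).mp h)
  by_cases h23 : ℓ = 23
  · subst h23
    obtain ⟨P, hP, h⟩ := principal_11_23 K
    exact ⟨P, hP, Or.inr h⟩
  by_cases h8 : ℓ < 8
  · obtain ⟨P, hP, h⟩ := lt_pow_inertiaDeg (K := K) (n := 11) hp hn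
      (if ℓ = 2 then 5 else if ℓ = 3 then 3 else 2) 60
      (by interval_cases ℓ <;> first | (exfalso; revert hp; norm_num; done) | decide)
      (by interval_cases ℓ <;> first | (exfalso; revert hp; norm_num; done) | decide)
    exact ⟨P, hP, Or.inl (hM.trans h)⟩
  · obtain ⟨P, hP, h⟩ := lt_pow_inertiaDeg (K := K) (n := 11) hp hn 1 60
      (by
        have h1 : ℓ % 11 ≠ 1 := by
          intro h
          have : ℓ = 12 ∨ ℓ = 23 ∨ ℓ = 34 ∨ ℓ = 45 ∨ ℓ = 56 := by omega
          rcases this with rfl | rfl | rfl | rfl | rfl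
          all_goals first | exact h23 rfl | (revert hp; norm_num)
        intro k hk
        rw [Finset.mem_Icc] at hk
        obtain rfl : k = 1 := by omega
        rw [pow_one]
        intro h
        have h' : ((ℓ : ℕ) : ZMod 11) = ((1 : ℕ) : ZMod 11) := by simpa using h
        rw [ZMod.natCast_eq_natCast_iff'] at h'
        exact h1 h')
      (by
        have : 8 ≤ ℓ := by omega
        calc 60 < 8 ^ 2 := by norm_num
          _ ≤ ℓ ^ 2 := Nat.pow_le_pow_left this 2)
    exact ⟨P, hP, Or.inl (hM.trans h)⟩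

theorem thirteen_pid [IsCyclotomicExtension {13} ℚ K] : IsPrincipalIdealRing (𝓞 K) := by
  have := IsCyclotomicExtension.isGalois {13} ℚ K
  apply isPrincipalIdealRing_of_isPrincipal_of_lt_or_isPrincipal_of_mem_primesOver_of_mem_Icc
  have hM : ⌊(4 / π) ^ nrComplexPlaces K * ((Module.finrank ℚ K)! / (Module.finrank ℚ K) ^
      (Module.finrank ℚ K) * √|(discr K : ℝ)|)⌋₊ < 308 := by
    rw [minkowski_eq K 13, Nat.floor_lt (by positivity)]
    have h1 : √((13 : ℝ) ^ (13 - 2)) ≤ 1338716 := by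
      rw [Real.sqrt_le_left (by norm_num)]; norm_num
    have h2 : (4 / π) ≤ 4 / 3.14 := by
      gcongr
      exact pi_gt_d2.le
    calc _ ≤ (4 / 3.14 : ℝ) ^ ((13 - 1) / 2) *
          ((13 - 1)! / ((13 - 1 : ℕ) : ℝ) ^ (13 - 1) * 1338716) := by
          gcongr
          exact_mod_cast h1
      _ < _ := by norm_num [Nat.factorial]
  generalize ⌊(4 / π) ^ nrComplexPlaces K * ((Module.finrank ℚ K)! / (Module.finrank ℚ K) ^
      (Module.finrank ℚ K) * √|(discr K : ℝ)|)⌋₊ = M at hM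
  intro ℓ hℓ hp
  rw [Finset.mem_Icc] at hℓ
  have h5 : ℓ < 308 := hℓ.2.trans_lt hM
  by_cases h13 : ℓ = 13
  · subst h13
    obtain ⟨P, hP, h⟩ := zeta_principal K 13
    exact ⟨P, hP, Or.inr h⟩
  have hn : ¬ ℓ ∣ 13 := fun h => h13 ((Nat.prime_dvd_prime_iff_eq hp (by norm_num)).mp h)
  by_cases h3 : ℓ = 3
  · subst h3
    obtain ⟨P, hP, h⟩ := principal_13_3 K
    exact ⟨P, hP, Or.inr h⟩
  by_cases h53 : ℓ = 53
  · subst h53
    obtain ⟨P, hP, h⟩ := principal_13_53 K
    exact ⟨P, hP, Or.inr h⟩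
  by_cases h79 : ℓ = 79
  · subst h79
    obtain ⟨P, hP, h⟩ := principal_13_79 K
    exact ⟨P, hP, Or.inr h⟩
  by_cases h131 : ℓ = 131
  · subst h131
    obtain ⟨P, hP, h⟩ := principal_13_131 K
    exact ⟨P, hP, Or.inr h⟩
  by_cases h157 : ℓ = 157
  · subst h157
    obtain ⟨P, hP, h⟩ := principal_13_157 K
    exact ⟨P, hP, Or.inr h⟩
  by_cases h18 : ℓ < 18
  · obtain ⟨P, hP, h⟩ := lt_pow_inertiaDeg (K := K) (n := 13) hp hn
      (if ℓ = 2 then 8 else if ℓ = 5 then 3 else 2) 308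
      (by interval_cases ℓ <;> first | (exact absurd rfl h3) | (exfalso; revert hp; norm_num; done) | decide)
      (by interval_cases ℓ <;> first | (exact absurd rfl h3) | (exfalso; revert hp; norm_num; done) | decide)
    exact ⟨P, hP, Or.inl (hM.trans h)⟩
  · obtain ⟨P, hP, h⟩ := lt_pow_inertiaDeg (K := K) (n := 13) hp hn 1 308
      (by
        have h1 : ℓ % 13 ≠ 1 := by
          intro h
          have : ∃ t, ℓ = 13 * t + 1 ∧ t < 24 := ⟨ℓ / 13, by omega, by omega⟩
          obtain ⟨t, rfl, ht⟩ := this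
          interval_cases t
          all_goals first | omega | (revert hp; norm_num)
        intro k hk
        rw [Finset.mem_Icc] at hk
        obtain rfl : k = 1 := by omega
        rw [pow_one]
        intro h
        have h' : ((ℓ : ℕ) : ZMod 13) = ((1 : ℕ) : ZMod 13) := by simpa using h
        rw [ZMod.natCast_eq_natCast_iff'] at h'
        exact h1 h')
      (by
        have : 18 ≤ ℓ := by omega
        calc 308 < 18 ^ 2 := by norm_num
          _ ≤ ℓ ^ 2 := Nat.pow_le_pow_left this 2)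
    exact ⟨P, hP, Or.inl (hM.trans h)⟩

end Fermat.Agent.KummerPID
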