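import Mathlib.NumberTheory.NumberField.Cyclotomic.PID
import Mathlib.NumberTheory.NumberField.Cyclotomic.Ideal
import Mathlib.NumberTheory.NumberField.Cyclotomic.Galois
import Mathlib.Tactic

set_option autoImplicit false

/-!
Certificates for principal primes in cyclotomic rings of integers, following Dedekind-Kummer.
-/

namespace Fermat.Agent.KummerPID

open NumberField Polynomial Ideal RingOfIntegers UniqueFactorizationMonoid

variable {K : Type*} [Field K] [NumberField K]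

section cert

variable {n : ℕ} [NeZero n] [IsCyclotomicExtension {n} ℚ K] {ζ : K}

/-- Dedekind-Kummer for the cyclotomic generator, with a principality certificate. -/
theorem exists_isPrincipal_of_cert (hζ : IsPrimitiveRoot ζ n) {ℓ : ℕ} (hℓ : ℓ.Prime)
    (Q : ℤ[X]) (hQm : (Q.map (Int.castRingHom (ZMod ℓ))).Monic)
    (hQi : Irreducible (Q.map (Int.castRingHom (ZMod ℓ))))
    (hQd : Q.map (Int.castRingHom (ZMod ℓ)) ∣ cyclotomic n (ZMod ℓ))
    (α : 𝓞 K) (h1 : α ∣ (ℓ : 𝓞 K)) (h2 : α ∣ aeval hζ.toInteger Q)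
    (h3 : α ∈ span {(ℓ : 𝓞 K), aeval hζ.toInteger Q}) :
    ∃ P ∈ primesOver (span {(ℓ : ℤ)}) (𝓞 K), Submodule.IsPrincipal P := by
  have : Fact ℓ.Prime := ⟨hℓ⟩
  have hexp : ¬ ℓ ∣ exponent hζ.toInteger := by
    rw [exponent_eq_one_iff.mpr <| IsCyclotomicExtension.Rat.adjoin_singleton_eq_top hζ]
    exact hℓ.not_dvd_one
  have hmin : minpoly ℤ hζ.toInteger = cyclotomic n ℤ := by
    have h := cyclotomic_eq_minpoly hζ (NeZero.pos n)
    have h' := RingOfIntegers.minpoly_coe hζ.toInteger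
    exact (h.trans h').symm
  have hmem : Q.map (Int.castRingHom (ZMod ℓ)) ∈ monicFactorsMod hζ.toInteger ℓ := by
    rw [Multiset.mem_toFinset, Polynomial.mem_normalizedFactors_iff
      (map_monic_ne_zero (minpoly.monic hζ.toInteger.isIntegral))]
    refine ⟨hQi, hQm, ?_⟩
    rw [hmin, map_cyclotomic_int]
    exact hQd
  refine ⟨_, ((Ideal.primesOverSpanEquivMonicFactorsMod hexp).symm ⟨_, hmem⟩).2, ?_⟩
  rw [Ideal.primesOverSpanEquivMonicFactorsMod_symm_apply_eq_span hexp hmem]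
  have : span {(ℓ : 𝓞 K), aeval hζ.toInteger Q} = span {α} := by
    apply le_antisymm
    · rw [span_le]
      rintro x (rfl | rfl)
      · exact mem_span_singleton.mpr h1
      · exact mem_span_singleton.mpr h2
    · rw [span_le]
      rintro x rfl
      exact h3
  rw [this]
  exact ⟨α, rfl⟩

/-- The linear case of `exists_isPrincipal_of_cert`. -/
theorem exists_isPrincipal_of_linear_cert (hζ : IsPrimitiveRoot ζ n) {ℓ : ℕ} (hℓ : ℓ.Prime)
    (a : ℤ) (ha : (cyclotomic n (ZMod ℓ)).eval (a : ZMod ℓ) = 0)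
    (α β γ s t : 𝓞 K) (h1 : α * β = (ℓ : 𝓞 K)) (h2 : α * γ = hζ.toInteger - (a : 𝓞 K))
    (h3 : α = (ℓ : 𝓞 K) * s + (hζ.toInteger - (a : 𝓞 K)) * t) :
    ∃ P ∈ primesOver (span {(ℓ : ℤ)}) (𝓞 K), Submodule.IsPrincipal P := by
  have : Fact ℓ.Prime := ⟨hℓ⟩
  have hQ : (X - C a : ℤ[X]).map (Int.castRingHom (ZMod ℓ)) = X - C (a : ZMod ℓ) := by
    simp
  have hae : aeval hζ.toInteger (X - C a : ℤ[X]) = hζ.toInteger - (a : 𝓞 K) := by
    simp
  refine exists_isPrincipal_of_cert hζ hℓ (X - C a) ?_ ?_ ?_ α ⟨β, h1.symm⟩ ?_ ?_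
  · rw [hQ]; exact monic_X_sub_C _
  · rw [hQ]; exact irreducible_X_sub_C _
  · rw [hQ]; exact dvd_iff_isRoot.mpr ha
  · rw [hae]; exact ⟨γ, h2.symm⟩
  · rw [hae, mem_span_pair]
    exact ⟨s, t, by rw [h3]; ring⟩

end cert

section degree

variable {n : ℕ} [NeZero n] [IsCyclotomicExtension {n} ℚ K]

/-- Lower bound on the norm of a prime over `ℓ` from the order of `ℓ` mod `n`. -/
theorem lt_pow_inertiaDeg {ℓ : ℕ} (hℓ : ℓ.Prime) (hn : ¬ ℓ ∣ n) (m B : ℕ)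
    (hm : ∀ k ∈ Finset.Icc 1 m, ((ℓ : ZMod n)) ^ k ≠ 1) (hB : B < ℓ ^ (m + 1)) :
    ∃ P ∈ primesOver (span {(ℓ : ℤ)}) (𝓞 K), B < ℓ ^ P.inertiaDeg ℤ := by
  have : Fact ℓ.Prime := ⟨hℓ⟩
  have : (span {(ℓ : ℤ)}).IsMaximal := Int.ideal_span_isMaximal_of_prime ℓ
  obtain ⟨P, hP1, hP2⟩ := exists_maximal_ideal_liesOver_of_isIntegral (S := 𝓞 K) (span {(ℓ : ℤ)})
  have hPp : P.IsPrime := hP1.isPrime
  refine ⟨P, ⟨hPp, hP2⟩, ?_⟩
  rw [IsCyclotomicExtension.Rat.inertiaDeg_eq_of_not_dvd (p := ℓ) (K := K) (P := P) (m := n) hn]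
  refine hB.trans_le (Nat.pow_le_pow_right hℓ.pos ?_)
  by_contra hlt
  push Not at hlt
  have hpos : 0 < orderOf (ℓ : ZMod n) := by
    rw [← IsCyclotomicExtension.Rat.inertiaDeg_eq_of_not_dvd (p := ℓ) (K := K) (P := P) (m := n) hn]
    exact inertiaDeg_pos ..
  exact hm (orderOf (ℓ : ZMod n)) (Finset.mem_Icc.mpr ⟨hpos, by omega⟩) (pow_orderOf_eq_one _)

end degree

end Fermat.Agent.KummerPID
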