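import Fermat.Agent.Kummer.PIDCert
import Mathlib.Algebra.Polynomial.SpecificDegree

set_option autoImplicit false

/-!
The rings of integers of the cyclotomic fields `ℚ(ζ_7)`, `ℚ(ζ_11)`, `ℚ(ζ_13)` are principal.
-/

namespace Fermat.Agent.KummerPID

open NumberField Polynomial Ideal RingOfIntegers UniqueFactorizationMonoid
open NumberField.InfinitePlace Nat Real

section small

variable {K : Type*} [Field K] [NumberField K]

theorem geom_rel {p : ℕ} [hp : Fact p.Prime] {ζ : K} (hζ : IsPrimitiveRoot ζ p) :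
    ∑ i ∈ Finset.range p, hζ.toInteger ^ i = 0 :=
  hζ.toInteger_isPrimitiveRoot.geom_sum_eq_zero hp.out.one_lt

theorem rel_11 {ζ : K} (hζ : IsPrimitiveRoot ζ 11) :
    1 + hζ.toInteger + hζ.toInteger ^ 2 + hζ.toInteger ^ 3 + hζ.toInteger ^ 4 + hζ.toInteger ^ 5
      + hζ.toInteger ^ 6 + hζ.toInteger ^ 7 + hζ.toInteger ^ 8 + hζ.toInteger ^ 9
      + hζ.toInteger ^ 10 = 0 := by
  have : Fact (Nat.Prime 11) := ⟨by norm_num⟩
  have h := geom_rel hζ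
  simp only [Finset.sum_range_succ, Finset.sum_range_zero] at h
  linear_combination h

theorem rel_13 {ζ : K} (hζ : IsPrimitiveRoot ζ 13) :
    1 + hζ.toInteger + hζ.toInteger ^ 2 + hζ.toInteger ^ 3 + hζ.toInteger ^ 4 + hζ.toInteger ^ 5
      + hζ.toInteger ^ 6 + hζ.toInteger ^ 7 + hζ.toInteger ^ 8 + hζ.toInteger ^ 9
      + hζ.toInteger ^ 10 + hζ.toInteger ^ 11 + hζ.toInteger ^ 12 = 0 := by
  have : Fact (Nat.Prime 13) := ⟨by norm_num⟩
  have h := geom_rel hζ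
  simp only [Finset.sum_range_succ, Finset.sum_range_zero] at h
  linear_combination h

end small

instance fact_prime_7 : Fact (Nat.Prime 7) := ⟨by norm_num⟩
instance fact_prime_11 : Fact (Nat.Prime 11) := ⟨by norm_num⟩
instance fact_prime_13 : Fact (Nat.Prime 13) := ⟨by norm_num⟩
instance fact_prime_23 : Fact (Nat.Prime 23) := ⟨by norm_num⟩
instance fact_prime_53 : Fact (Nat.Prime 53) := ⟨by norm_num⟩
instance fact_prime_79 : Fact (Nat.Prime 79) := ⟨by norm_num⟩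
instance fact_prime_131 : Fact (Nat.Prime 131) := ⟨by norm_num⟩
instance fact_prime_157 : Fact (Nat.Prime 157) := ⟨by norm_num⟩

section eleven

variable {K : Type*} [Field K] [NumberField K] [IsCyclotomicExtension {11} ℚ K]

variable (K) in
theorem principal_11_23 : ∃ P ∈ primesOver (span {((23 : ℕ) : ℤ)}) (𝓞 K), Submodule.IsPrincipal P := by
  have hζ := IsCyclotomicExtension.zeta_spec 11 ℚ K
  set z : 𝓞 K := hζ.toInteger with hz
  have hrel : 1 + z + z ^ 2 + z ^ 3 + z ^ 4 + z ^ 5 + z ^ 6 + z ^ 7 + z ^ 8 + z ^ 9 + z ^ 10 = 0 := rel_11 hζ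
  refine exists_isPrincipal_of_linear_cert hζ (ℓ := 23) (by norm_num) 13 ?_
    ((1) + (-1) * z + (1) * z ^ 3)
    ((8) + (-2) * z + (-1) * z ^ 2 + (-8) * z ^ 3 + (-5) * z ^ 4 + (-3) * z ^ 5 + (6) * z ^ 6 + (12) * z ^ 7 + (16) * z ^ 8 + (11) * z ^ 9)
    ((-5) + (1) * z + (4) * z ^ 3 + (2) * z ^ 4 + (1) * z ^ 5 + (-4) * z ^ 6 + (-7) * z ^ 7 + (-9) * z ^ 8 + (-6) * z ^ 9)
    (95) ((168) + (13) * z + (1) * z ^ 2) ?_ ?_ ?_
  · rw [cyclotomic_prime, eval_geom_sum]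
    decide +kernel
  · push_cast
    linear_combination ((-15) + (5) * z + (11) * z ^ 2) * hrel
  · push_cast
    linear_combination ((8) + (-3) * z + (-6) * z ^ 2) * hrel
  · push_cast
    ring

end eleven

section thirteen

variable {K : Type*} [Field K] [NumberField K] [IsCyclotomicExtension {13} ℚ K]

variable (K) in
theorem principal_13_53 : ∃ P ∈ primesOver (span {((53 : ℕ) : ℤ)}) (𝓞 K), Submodule.IsPrincipal P := by
  have hζ := IsCyclotomicExtension.zeta_spec 13 ℚ K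
  set z : 𝓞 K := hζ.toInteger with hz
  have hrel : 1 + z + z ^ 2 + z ^ 3 + z ^ 4 + z ^ 5 + z ^ 6 + z ^ 7 + z ^ 8 + z ^ 9 + z ^ 10 + z ^ 11 + z ^ 12 = 0 := rel_13 hζ
  refine exists_isPrincipal_of_linear_cert hζ (ℓ := 53) (by norm_num) 16 ?_
    ((1) + (-1) * z + (1) * z ^ 3)
    ((25) + (10) * z + (19) * z ^ 2 + (3) * z ^ 3 + (2) * z ^ 4 + (-8) * z ^ 5 + (-2) * z ^ 6 + (5) * z ^ 7 + (22) * z ^ 8 + (33) * z ^ 9 + (37) * z ^ 10 + (24) * z ^ 11)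
    ((-8) + (-3) * z + (-6) * z ^ 2 + (-1) * z ^ 3 + (-1) * z ^ 4 + (2) * z ^ 5 + (-2) * z ^ 7 + (-7) * z ^ 8 + (-10) * z ^ 9 + (-11) * z ^ 10 + (-7) * z ^ 11)
    (77) ((255) + (16) * z + (1) * z ^ 2) ?_ ?_ ?_
  · rw [cyclotomic_prime, eval_geom_sum]
    decide +kernel
  · push_cast
    linear_combination ((-28) + (13) * z + (24) * z ^ 2) * hrel
  · push_cast
    linear_combination ((8) + (-4) * z + (-7) * z ^ 2) * hrel
  · push_cast
    ring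

variable (K) in
theorem principal_13_79 : ∃ P ∈ primesOver (span {((79 : ℕ) : ℤ)}) (𝓞 K), Submodule.IsPrincipal P := by
  have hζ := IsCyclotomicExtension.zeta_spec 13 ℚ K
  set z : 𝓞 K := hζ.toInteger with hz
  have hrel : 1 + z + z ^ 2 + z ^ 3 + z ^ 4 + z ^ 5 + z ^ 6 + z ^ 7 + z ^ 8 + z ^ 9 + z ^ 10 + z ^ 11 + z ^ 12 = 0 := rel_13 hζ
  refine exists_isPrincipal_of_linear_cert hζ (ℓ := 79) (by norm_num) 62 ?_
    ((1) + (-1) * z + (-1) * z ^ 4)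
    ((62) + (63) * z + (49) * z ^ 2 + (8) * z ^ 3 + (29) * z ^ 4 + (51) * z ^ 5 + (59) * z ^ 6 + (26) * z ^ 7 + (14) * z ^ 8 + (24) * z ^ 9 + (42) * z ^ 10 + (27) * z ^ 11)
    ((-49) + (-49) * z + (-38) * z ^ 2 + (-6) * z ^ 3 + (-23) * z ^ 4 + (-40) * z ^ 5 + (-46) * z ^ 6 + (-20) * z ^ 7 + (-11) * z ^ 8 + (-19) * z ^ 9 + (-33) * z ^ 10 + (-21) * z ^ 11)
    (-187043) ((-238329) + (-3844) * z + (-62) * z ^ 2 + (-1) * z ^ 3) ?_ ?_ ?_
  · rw [cyclotomic_prime, eval_geom_sum]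
    decide +kernel
  · push_cast
    linear_combination ((-17) + (18) * z + (-15) * z ^ 2 + (-27) * z ^ 3) * hrel
  · push_cast
    linear_combination ((13) + (-14) * z + (12) * z ^ 2 + (21) * z ^ 3) * hrel
  · push_cast
    ring

variable (K) in
theorem principal_13_131 : ∃ P ∈ primesOver (span {((131 : ℕ) : ℤ)}) (𝓞 K), Submodule.IsPrincipal P := by
  have hζ := IsCyclotomicExtension.zeta_spec 13 ℚ K
  set z : 𝓞 K := hζ.toInteger with hz
  have hrel : 1 + z + z ^ 2 + z ^ 3 + z ^ 4 + z ^ 5 + z ^ 6 + z ^ 7 + z ^ 8 + z ^ 9 + z ^ 10 + z ^ 11 + z ^ 12 = 0 := rel_13 hζ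
  refine exists_isPrincipal_of_linear_cert hζ (ℓ := 131) (by norm_num) 80 ?_
    ((1) + (-1) * z + (-1) * z ^ 3)
    ((111) + (78) * z + (17) * z ^ 2 + (67) * z ^ 3 + (84) * z ^ 4 + (40) * z ^ 5 + (46) * z ^ 6 + (69) * z ^ 7 + (48) * z ^ 8 + (33) * z ^ 9 + (41) * z ^ 10 + (28) * z ^ 11)
    ((-68) + (-47) * z + (-10) * z ^ 2 + (-41) * z ^ 3 + (-51) * z ^ 4 + (-24) * z ^ 5 + (-28) * z ^ 6 + (-42) * z ^ 7 + (-29) * z ^ 8 + (-20) * z ^ 9 + (-25) * z ^ 10 + (-17) * z ^ 11)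
    (-3909) ((-6401) + (-80) * z + (-1) * z ^ 2) ?_ ?_ ?_
  · rw [cyclotomic_prime, eval_geom_sum]
    decide +kernel
  · push_cast
    linear_combination ((-20) + (-13) * z + (-28) * z ^ 2) * hrel
  · push_cast
    linear_combination ((12) + (8) * z + (17) * z ^ 2) * hrel
  · push_cast
    ring

variable (K) in
theorem principal_13_157 : ∃ P ∈ primesOver (span {((157 : ℕ) : ℤ)}) (𝓞 K), Submodule.IsPrincipal P := by
  have hζ := IsCyclotomicExtension.zeta_spec 13 ℚ K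
  set z : 𝓞 K := hζ.toInteger with hz
  have hrel : 1 + z + z ^ 2 + z ^ 3 + z ^ 4 + z ^ 5 + z ^ 6 + z ^ 7 + z ^ 8 + z ^ 9 + z ^ 10 + z ^ 11 + z ^ 12 = 0 := rel_13 hζ
  refine exists_isPrincipal_of_linear_cert hζ (ℓ := 157) (by norm_num) 75 ?_
    ((1) + (-1) * z + (1) * z ^ 2 + (1) * z ^ 4)
    ((89) + (86) * z + (42) * z ^ 2 + (77) * z ^ 3 + (67) * z ^ 4 + (25) * z ^ 5 + (37) * z ^ 6 + (56) * z ^ 7 + (73) * z ^ 8 + (113) * z ^ 9 + (124) * z ^ 10 + (76) * z ^ 11)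
    ((-43) + (-41) * z + (-20) * z ^ 2 + (-37) * z ^ 3 + (-32) * z ^ 4 + (-12) * z ^ 5 + (-18) * z ^ 6 + (-27) * z ^ 7 + (-35) * z ^ 8 + (-54) * z ^ 9 + (-59) * z ^ 10 + (-36) * z ^ 11)
    (201568) ((421949) + (5626) * z + (75) * z ^ 2 + (1) * z ^ 3) ?_ ?_ ?_
  · rw [cyclotomic_prime, eval_geom_sum]
    decide +kernel
  · push_cast
    linear_combination ((-68) + (65) * z + (48) * z ^ 2 + (76) * z ^ 3) * hrel
  · push_cast
    linear_combination ((32) + (-31) * z + (-23) * z ^ 2 + (-36) * z ^ 3) * hrel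
  · push_cast
    ring

variable (K) in
theorem principal_13_3 : ∃ P ∈ primesOver (span {((3 : ℕ) : ℤ)}) (𝓞 K), Submodule.IsPrincipal P := by
  have hζ := IsCyclotomicExtension.zeta_spec 13 ℚ K
  set z : 𝓞 K := hζ.toInteger with hz
  have hrel : 1 + z + z ^ 2 + z ^ 3 + z ^ 4 + z ^ 5 + z ^ 6 + z ^ 7 + z ^ 8 + z ^ 9 + z ^ 10 + z ^ 11 + z ^ 12 = 0 := rel_13 hζ
  have hmap : (X ^ 3 - X - 1 : ℤ[X]).map (Int.castRingHom (ZMod 3)) = X ^ 3 - X - 1 := by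
    simp
  have hmon : (X ^ 3 - X - 1 : (ZMod 3)[X]).Monic := by monicity!
  have hdeg : (X ^ 3 - X - 1 : (ZMod 3)[X]).natDegree = 3 := by compute_degree!
  have hae : aeval z (X ^ 3 - X - 1 : ℤ[X]) = z ^ 3 - z - 1 := by simp
  refine exists_isPrincipal_of_cert hζ (ℓ := 3) (by norm_num) (X ^ 3 - X - 1) ?_ ?_ ?_
    (1 + z - z ^ 3) ?_ ?_ ?_
  · rw [hmap]; exact hmon
  · rw [hmap]
    apply irreducible_of_degree_le_three_of_not_isRoot
    · rw [hdeg]; decide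
    · intro x
      rw [IsRoot.def]
      simp only [eval_sub, eval_pow, eval_X, eval_one]
      revert x
      decide
  · rw [hmap, cyclotomic_prime]
    refine ⟨2 + 2 * X ^ 2 + 2 * X ^ 3 + X ^ 5 + 2 * X ^ 7 + X ^ 8 + X ^ 9, ?_⟩
    simp only [Finset.sum_range_succ, Finset.sum_range_zero]
    have h3 : (3 : (ZMod 3)[X]) = 0 := by
      have : ((3 : ℕ) : (ZMod 3)[X]) = 0 := CharP.cast_eq_zero _ 3
      exact_mod_cast this
    linear_combination ((1) + (1) * X ^ 1 + (1) * X ^ 2 + (1) * X ^ 3 + (1) * X ^ 4 + (1) * X ^ 7 + (1) * X ^ 8 + (1) * X ^ 9) * h3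
  · refine ⟨-1 - z ^ 2 - z ^ 3 - 2 * z ^ 5 - z ^ 7 - 2 * z ^ 8 + z ^ 9 - 3 * z ^ 10, ?_⟩
    push_cast
    linear_combination (-(-4 + 3 * z)) * hrel
  · rw [hae]
    exact ⟨-1, by ring⟩
  · rw [hae]
    have : (1 + z - z ^ 3 : 𝓞 K) = - (z ^ 3 - z - 1) := by ring
    rw [this]
    exact neg_mem (subset_span (by simp))

end thirteen

end Fermat.Agent.KummerPID
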