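import Fermat.Agent.Kummer.UnitsLemma

set_option autoImplicit false

/-!
Explicit echelon systems of cyclotomic units for `p = 5, 7, 11, 13`, hence Kummer's lemma for
these primes.
-/

namespace Fermat.Agent.KummerUnits

open NumberField

section certs

theorem cert_5_2 {R : Type*} [CommRing R] (x : R) :
    (1 + x) ^ 2 * (∑ i ∈ Finset.range 2, (1 + x) ^ i) ^ 1 =
      (2 + 4 * x ^ 2) * (1) + x ^ 3 * ((1)) + 5 * ((1) * x) := by
  simp only [Finset.sum_range_succ, Finset.sum_range_zero]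
  ring

theorem cert_7_2 {R : Type*} [CommRing R] (x : R) :
    (1 + x) ^ 3 * (∑ i ∈ Finset.range 2, (1 + x) ^ i) ^ 1 =
      (2 + 2 * x ^ 2) * (1) + x ^ 3 * ((5) + (1) * x) + 7 * ((1) * x + (1) * x ^ 2) := by
  simp only [Finset.sum_range_succ, Finset.sum_range_zero]
  ring

theorem cert_7_4 {R : Type*} [CommRing R] (x : R) :
    (∑ i ∈ Finset.range 2, (1 + x) ^ i) ^ 2 * (∑ i ∈ Finset.range 3, (1 + x) ^ i) ^ 1 =
      (5 + 1 * x ^ 4) * ((1 + x) ^ 2) + x ^ 5 * ((-2) + (-1) * x) + 7 * ((1) + (2) * x + (2) * x ^ 2 + (1) * x ^ 3) := by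
  simp only [Finset.sum_range_succ, Finset.sum_range_zero]
  ring

theorem cert_11_2 {R : Type*} [CommRing R] (x : R) :
    (1 + x) ^ 5 * (∑ i ∈ Finset.range 2, (1 + x) ^ i) ^ 1 =
      (2 + 3 * x ^ 2) * (1) + x ^ 3 * ((30) + (20) * x + (7) * x ^ 2 + (1) * x ^ 3) + 11 * ((1) * x + (2) * x ^ 2) := by
  simp only [Finset.sum_range_succ, Finset.sum_range_zero]
  ring

theorem cert_11_4 {R : Type*} [CommRing R] (x : R) :
    (1 + x) ^ 4 * (∑ i ∈ Finset.range 2, (1 + x) ^ i) ^ 1 * (∑ i ∈ Finset.range 3, (1 + x) ^ i) ^ 1 =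
      (6 + 10 * x ^ 4) * (1) + x ^ 5 * ((35) + (9) * x + (1) * x ^ 2) + 11 * ((3) * x + (7) * x ^ 2 + (9) * x ^ 3 + (6) * x ^ 4) := by
  simp only [Finset.sum_range_succ, Finset.sum_range_zero]
  ring

theorem cert_11_6 {R : Type*} [CommRing R] (x : R) :
    (∑ i ∈ Finset.range 2, (1 + x) ^ i) ^ 4 =
      (5 + 6 * x ^ 6) * ((1 + x) ^ 5 * (∑ i ∈ Finset.range 3, (1 + x) ^ i) ^ 1 * (∑ i ∈ Finset.range 4, (1 + x) ^ i) ^ 1) + x ^ 7 * ((-1635) + (-2154) * x + (-3726) * x ^ 2 + (-4877) * x ^ 3 + (-4488) * x ^ 4 + (-2910) * x ^ 5 + (-1314) * x ^ 6 + (-396) * x ^ 7 + (-72) * x ^ 8 + (-6) * x ^ 9) + 11 * ((-4) + (-38) * x + (-136) * x ^ 2 + (-277) * x ^ 3 + (-369) * x ^ 4 + (-340) * x ^ 5 + (-227) * x ^ 6) := by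
  simp only [Finset.sum_range_succ, Finset.sum_range_zero]
  ring

theorem cert_11_8 {R : Type*} [CommRing R] (x : R) :
    (1 + x) ^ 1 * (∑ i ∈ Finset.range 2, (1 + x) ^ i) ^ 5 * (∑ i ∈ Finset.range 3, (1 + x) ^ i) ^ 3 * (∑ i ∈ Finset.range 5, (1 + x) ^ i) ^ 1 =
      (6 + 1 * x ^ 8) * ((∑ i ∈ Finset.range 4, (1 + x) ^ i) ^ 2) + x ^ 9 * ((306264) + (130510) * x + (43750) * x ^ 2 + (11301) * x ^ 3 + (2174) * x ^ 4 + (294) * x ^ 5 + (25) * x ^ 6 + (1) * x ^ 7) + 11 * ((384) + (3312) * x + (13512) * x ^ 2 + (34824) * x ^ 3 + (63546) * x ^ 4 + (87033) * x ^ 5 + (92462) * x ^ 6 + (77633) * x ^ 7 + (51998) * x ^ 8) := by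
  simp only [Finset.sum_range_succ, Finset.sum_range_zero]
  ring

theorem cert_13_2 {R : Type*} [CommRing R] (x : R) :
    (1 + x) ^ 6 * (∑ i ∈ Finset.range 2, (1 + x) ^ i) ^ 1 =
      (2 + 10 * x ^ 2) * (1) + x ^ 3 * ((55) + (50) * x + (27) * x ^ 2 + (8) * x ^ 3 + (1) * x ^ 4) + 13 * ((1) * x + (2) * x ^ 2) := by
  simp only [Finset.sum_range_succ, Finset.sum_range_zero]
  ring

theorem cert_13_4 {R : Type*} [CommRing R] (x : R) :
    (1 + x) ^ 5 * (∑ i ∈ Finset.range 3, (1 + x) ^ i) ^ 2 =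
      (11 + 8 * x ^ 4) * ((∑ i ∈ Finset.range 2, (1 + x) ^ i) ^ 1) + x ^ 5 * ((306) + (163) * x + (55) * x ^ 2 + (11) * x ^ 3 + (1) * x ^ 4) + 13 * ((-1) + (4) * x + (15) * x ^ 2 + (27) * x ^ 3 + (30) * x ^ 4) := by
  simp only [Finset.sum_range_succ, Finset.sum_range_zero]
  ring

theorem cert_13_6 {R : Type*} [CommRing R] (x : R) :
    (1 + x) ^ 6 * (∑ i ∈ Finset.range 2, (1 + x) ^ i) ^ 2 * (∑ i ∈ Finset.range 3, (1 + x) ^ i) ^ 2 =
      (6 + 12 * x ^ 6) * ((∑ i ∈ Finset.range 6, (1 + x) ^ i) ^ 1) + x ^ 7 * ((3320) + (1373) * x + (350) * x ^ 2 + (46) * x ^ 3 + (4) * x ^ 4 + (1) * x ^ 5) + 13 * ((18) * x + (93) * x ^ 2 + (246) * x ^ 3 + (418) * x ^ 4 + (496) * x ^ 5 + (421) * x ^ 6) := by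
  simp only [Finset.sum_range_succ, Finset.sum_range_zero]
  ring

theorem cert_13_8 {R : Type*} [CommRing R] (x : R) :
    (1 + x) ^ 6 * (∑ i ∈ Finset.range 3, (1 + x) ^ i) ^ 2 * (∑ i ∈ Finset.range 4, (1 + x) ^ i) ^ 2 * (∑ i ∈ Finset.range 6, (1 + x) ^ i) ^ 1 =
      (3 + 12 * x ^ 8) * ((∑ i ∈ Finset.range 2, (1 + x) ^ i) ^ 1) + x ^ 9 * ((7434669) + (6421034) * x + (4676258) * x ^ 2 + (2870692) * x ^ 3 + (1480424) * x ^ 4 + (637014) * x ^ 5 + (226226) * x ^ 6 + (65230) * x ^ 7 + (14902) * x ^ 8 + (2598) * x ^ 9 + (325) * x ^ 10 + (26) * x ^ 11 + (1) * x ^ 12) + 13 * ((66) + (897) * x + (5832) * x ^ 2 + (24300) * x ^ 3 + (72864) * x ^ 4 + (167256) * x ^ 5 + (305126) * x ^ 6 + (453207) * x ^ 7 + (556864) * x ^ 8) := by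
  simp only [Finset.sum_range_succ, Finset.sum_range_zero]
  ring

theorem cert_13_10 {R : Type*} [CommRing R] (x : R) :
    (∑ i ∈ Finset.range 3, (1 + x) ^ i) ^ 3 * (∑ i ∈ Finset.range 4, (1 + x) ^ i) ^ 1 * (∑ i ∈ Finset.range 5, (1 + x) ^ i) ^ 4 =
      (12 + 2 * x ^ 10) * ((1 + x) ^ 2 * (∑ i ∈ Finset.range 2, (1 + x) ^ i) ^ 3 * (∑ i ∈ Finset.range 6, (1 + x) ^ i) ^ 1) + x ^ 11 * ((618160674) + (464608844) * x + (304108490) * x ^ 2 + (173222428) * x ^ 3 + (85646881) * x ^ 4 + (36593561) * x ^ 5 + (13420270) * x ^ 6 + (4184575) * x ^ 7 + (1094845) * x ^ 8 + (235996) * x ^ 9 + (40829) * x ^ 10 + (5453) * x ^ 11 + (528) * x ^ 12 + (33) * x ^ 13 + (1) * x ^ 14) + 13 * ((5148) + (64638) * x + (401658) * x ^ 2 + (1640775) * x ^ 3 + (4938351) * x ^ 4 + (11636772) * x ^ 5 + (22277131) * x ^ 6 + (35497178) * x ^ 7 + (47866713) * x ^ 8 + (55255839) * x ^ 9 + (55038634) * x ^ 10) := by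
  simp only [Finset.sum_range_succ, Finset.sum_range_zero]
  ring

end certs

section data

variable {p : ℕ} [hp : Fact p.Prime] {K : Type*} [Field K] [NumberField K] {ζ : K}

/-- `ζ` as a unit. -/
noncomputable def zu (hζ : IsPrimitiveRoot ζ p) : (𝓞 K)ˣ :=
  (hζ.toInteger_isPrimitiveRoot.isUnit hp.out.ne_zero).unit

open Classical in
/-- The cyclotomic unit `1 + ζ + ⋯ + ζ ^ (a - 1)` (or `1` if it is not a unit). -/
noncomputable def cu (hζ : IsPrimitiveRoot ζ p) (a : ℕ) : (𝓞 K)ˣ :=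
  if h : IsUnit (∑ i ∈ Finset.range a, hζ.toInteger ^ i) then h.unit else 1

theorem coe_zu (hζ : IsPrimitiveRoot ζ p) : (zu hζ : 𝓞 K) = hζ.toInteger :=
  IsUnit.unit_spec _

theorem coe_cu (hζ : IsPrimitiveRoot ζ p) {a : ℕ} (ha : a.Coprime p) :
    (cu hζ a : 𝓞 K) = ∑ i ∈ Finset.range a, hζ.toInteger ^ i := by
  have h : IsUnit (∑ i ∈ Finset.range a, hζ.toInteger ^ i) :=
    hζ.toInteger_isPrimitiveRoot.geom_sum_isUnit hp.out.two_le ha
  rw [cu, dif_pos h, IsUnit.unit_spec]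

theorem level_of_cert [IsCyclotomicExtension {p} ℚ K] (hζ : IsPrimitiveRoot ζ p) {L : ℕ}
    (hL : L + 1 ≤ p - 1) (A B : (𝓞 K)ˣ) (s t : ℤ) (W V : 𝓞 K)
    (h : (A : 𝓞 K) = (s + t * (hζ.toInteger - 1) ^ L) * B + (hζ.toInteger - 1) ^ (L + 1) * W
      + (p : 𝓞 K) * V) :
    (hζ.toInteger - 1) ^ (L + 1) ∣
      ((A * B⁻¹ : (𝓞 K)ˣ) : 𝓞 K) - (s + t * (hζ.toInteger - 1) ^ L) := by
  have h1 : ((A * B⁻¹ : (𝓞 K)ˣ) : 𝓞 K) - (s + t * (hζ.toInteger - 1) ^ L) =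
      (A - (s + t * (hζ.toInteger - 1) ^ L) * B) * (B⁻¹ : (𝓞 K)ˣ) := by
    have h2 : (B : 𝓞 K) * ((B⁻¹ : (𝓞 K)ˣ) : 𝓞 K) = 1 := by simp
    push_cast
    linear_combination (s + t * (hζ.toInteger - 1) ^ L : 𝓞 K) * h2
  rw [h1, h]
  refine Dvd.dvd.mul_right ?_ _
  have h3 : (s + t * (hζ.toInteger - 1) ^ L : 𝓞 K) * B + (hζ.toInteger - 1) ^ (L + 1) * W
      + (p : 𝓞 K) * V - (s + t * (hζ.toInteger - 1) ^ L) * B =
      (hζ.toInteger - 1) ^ (L + 1) * W + (p : 𝓞 K) * V := by ring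
  rw [h3]
  exact dvd_add (dvd_mul_right _ _) ((zeta_sub_one_pow_dvd_p hζ hL).mul_right _)

end data

instance fact_prime_five : Fact (Nat.Prime 5) := ⟨by norm_num⟩
instance fact_prime_seven : Fact (Nat.Prime 7) := ⟨by norm_num⟩
instance fact_prime_eleven : Fact (Nat.Prime 11) := ⟨by norm_num⟩
instance fact_prime_thirteen : Fact (Nat.Prime 13) := ⟨by norm_num⟩


/-- Echelon system of units for `p = 5`. -/
noncomputable def echelon_5 {K : Type*} [Field K] [NumberField K] [IsCyclotomicExtension {5} ℚ K] {ζ : K}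
    (hζ : IsPrimitiveRoot ζ 5) : Echelon K hζ 2 where
  u := ![zu hζ, (zu hζ ^ 2 * cu hζ 2 ^ 1) * (1)⁻¹]
  L := ![1, 2]
  s := ![1, 2]
  t := ![1, 4]
  mono := by decide
  pos := by decide
  lt := by decide
  hs := by decide
  ht := by decide
  h := by
    intro i
    fin_cases i
    · simp [zu]
    · refine level_of_cert hζ (L := 2) (by norm_num) (zu hζ ^ 2 * cu hζ 2 ^ 1) (1) 2 4
        ((1))
        ((1) * (hζ.toInteger - 1)) ?_
      have h := cert_5_2 (hζ.toInteger - 1)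
      rw [add_sub_cancel] at h
      push_cast [coe_zu, coe_cu hζ (show Nat.Coprime 2 5 by norm_num), coe_cu hζ (show Nat.Coprime 3 5 by norm_num), coe_cu hζ (show Nat.Coprime 4 5 by norm_num), coe_cu hζ (show Nat.Coprime 6 5 by norm_num)]
      linear_combination h

/-- Echelon system of units for `p = 7`. -/
noncomputable def echelon_7 {K : Type*} [Field K] [NumberField K] [IsCyclotomicExtension {7} ℚ K] {ζ : K}
    (hζ : IsPrimitiveRoot ζ 7) : Echelon K hζ 3 where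
  u := ![zu hζ, (zu hζ ^ 3 * cu hζ 2 ^ 1) * (1)⁻¹, (cu hζ 2 ^ 2 * cu hζ 3 ^ 1) * (zu hζ ^ 2)⁻¹]
  L := ![1, 2, 4]
  s := ![1, 2, 5]
  t := ![1, 2, 1]
  mono := by decide
  pos := by decide
  lt := by decide
  hs := by decide
  ht := by decide
  h := by
    intro i
    fin_cases i
    · simp [zu]
    · refine level_of_cert hζ (L := 2) (by norm_num) (zu hζ ^ 3 * cu hζ 2 ^ 1) (1) 2 2
        ((5) + (1) * (hζ.toInteger - 1))
        ((1) * (hζ.toInteger - 1) + (1) * (hζ.toInteger - 1) ^ 2) ?_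
      have h := cert_7_2 (hζ.toInteger - 1)
      rw [add_sub_cancel] at h
      push_cast [coe_zu, coe_cu hζ (show Nat.Coprime 2 7 by norm_num), coe_cu hζ (show Nat.Coprime 3 7 by norm_num), coe_cu hζ (show Nat.Coprime 4 7 by norm_num), coe_cu hζ (show Nat.Coprime 5 7 by norm_num), coe_cu hζ (show Nat.Coprime 6 7 by norm_num)]
      linear_combination h
    · refine level_of_cert hζ (L := 4) (by norm_num) (cu hζ 2 ^ 2 * cu hζ 3 ^ 1) (zu hζ ^ 2) 5 1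
        ((-2) + (-1) * (hζ.toInteger - 1))
        ((1) + (2) * (hζ.toInteger - 1) + (2) * (hζ.toInteger - 1) ^ 2 + (1) * (hζ.toInteger - 1) ^ 3) ?_
      have h := cert_7_4 (hζ.toInteger - 1)
      rw [add_sub_cancel] at h
      push_cast [coe_zu, coe_cu hζ (show Nat.Coprime 2 7 by norm_num), coe_cu hζ (show Nat.Coprime 3 7 by norm_num), coe_cu hζ (show Nat.Coprime 4 7 by norm_num), coe_cu hζ (show Nat.Coprime 5 7 by norm_num), coe_cu hζ (show Nat.Coprime 6 7 by norm_num)]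
      linear_combination h

/-- Echelon system of units for `p = 11`. -/
noncomputable def echelon_11 {K : Type*} [Field K] [NumberField K] [IsCyclotomicExtension {11} ℚ K] {ζ : K}
    (hζ : IsPrimitiveRoot ζ 11) : Echelon K hζ 5 where
  u := ![zu hζ, (zu hζ ^ 5 * cu hζ 2 ^ 1) * (1)⁻¹, (zu hζ ^ 4 * cu hζ 2 ^ 1 * cu hζ 3 ^ 1) * (1)⁻¹, (cu hζ 2 ^ 4) * (zu hζ ^ 5 * cu hζ 3 ^ 1 * cu hζ 4 ^ 1)⁻¹, (zu hζ ^ 1 * cu hζ 2 ^ 5 * cu hζ 3 ^ 3 * cu hζ 5 ^ 1) * (cu hζ 4 ^ 2)⁻¹]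
  L := ![1, 2, 4, 6, 8]
  s := ![1, 2, 6, 5, 6]
  t := ![1, 3, 10, 6, 1]
  mono := by decide
  pos := by decide
  lt := by decide
  hs := by decide
  ht := by decide
  h := by
    intro i
    fin_cases i
    · simp [zu]
    · refine level_of_cert hζ (L := 2) (by norm_num) (zu hζ ^ 5 * cu hζ 2 ^ 1) (1) 2 3
        ((30) + (20) * (hζ.toInteger - 1) + (7) * (hζ.toInteger - 1) ^ 2 + (1) * (hζ.toInteger - 1) ^ 3)
        ((1) * (hζ.toInteger - 1) + (2) * (hζ.toInteger - 1) ^ 2) ?_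
      have h := cert_11_2 (hζ.toInteger - 1)
      rw [add_sub_cancel] at h
      push_cast [coe_zu, coe_cu hζ (show Nat.Coprime 2 11 by norm_num), coe_cu hζ (show Nat.Coprime 3 11 by norm_num), coe_cu hζ (show Nat.Coprime 4 11 by norm_num), coe_cu hζ (show Nat.Coprime 5 11 by norm_num), coe_cu hζ (show Nat.Coprime 6 11 by norm_num)]
      linear_combination h
    · refine level_of_cert hζ (L := 4) (by norm_num) (zu hζ ^ 4 * cu hζ 2 ^ 1 * cu hζ 3 ^ 1) (1) 6 10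
        ((35) + (9) * (hζ.toInteger - 1) + (1) * (hζ.toInteger - 1) ^ 2)
        ((3) * (hζ.toInteger - 1) + (7) * (hζ.toInteger - 1) ^ 2 + (9) * (hζ.toInteger - 1) ^ 3 + (6) * (hζ.toInteger - 1) ^ 4) ?_
      have h := cert_11_4 (hζ.toInteger - 1)
      rw [add_sub_cancel] at h
      push_cast [coe_zu, coe_cu hζ (show Nat.Coprime 2 11 by norm_num), coe_cu hζ (show Nat.Coprime 3 11 by norm_num), coe_cu hζ (show Nat.Coprime 4 11 by norm_num), coe_cu hζ (show Nat.Coprime 5 11 by norm_num), coe_cu hζ (show Nat.Coprime 6 11 by norm_num)]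
      linear_combination h
    · refine level_of_cert hζ (L := 6) (by norm_num) (cu hζ 2 ^ 4) (zu hζ ^ 5 * cu hζ 3 ^ 1 * cu hζ 4 ^ 1) 5 6
        ((-1635) + (-2154) * (hζ.toInteger - 1) + (-3726) * (hζ.toInteger - 1) ^ 2 + (-4877) * (hζ.toInteger - 1) ^ 3 + (-4488) * (hζ.toInteger - 1) ^ 4 + (-2910) * (hζ.toInteger - 1) ^ 5 + (-1314) * (hζ.toInteger - 1) ^ 6 + (-396) * (hζ.toInteger - 1) ^ 7 + (-72) * (hζ.toInteger - 1) ^ 8 + (-6) * (hζ.toInteger - 1) ^ 9)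
        ((-4) + (-38) * (hζ.toInteger - 1) + (-136) * (hζ.toInteger - 1) ^ 2 + (-277) * (hζ.toInteger - 1) ^ 3 + (-369) * (hζ.toInteger - 1) ^ 4 + (-340) * (hζ.toInteger - 1) ^ 5 + (-227) * (hζ.toInteger - 1) ^ 6) ?_
      have h := cert_11_6 (hζ.toInteger - 1)
      rw [add_sub_cancel] at h
      push_cast [coe_zu, coe_cu hζ (show Nat.Coprime 2 11 by norm_num), coe_cu hζ (show Nat.Coprime 3 11 by norm_num), coe_cu hζ (show Nat.Coprime 4 11 by norm_num), coe_cu hζ (show Nat.Coprime 5 11 by norm_num), coe_cu hζ (show Nat.Coprime 6 11 by norm_num)]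
      linear_combination h
    · refine level_of_cert hζ (L := 8) (by norm_num) (zu hζ ^ 1 * cu hζ 2 ^ 5 * cu hζ 3 ^ 3 * cu hζ 5 ^ 1) (cu hζ 4 ^ 2) 6 1
        ((306264) + (130510) * (hζ.toInteger - 1) + (43750) * (hζ.toInteger - 1) ^ 2 + (11301) * (hζ.toInteger - 1) ^ 3 + (2174) * (hζ.toInteger - 1) ^ 4 + (294) * (hζ.toInteger - 1) ^ 5 + (25) * (hζ.toInteger - 1) ^ 6 + (1) * (hζ.toInteger - 1) ^ 7)
        ((384) + (3312) * (hζ.toInteger - 1) + (13512) * (hζ.toInteger - 1) ^ 2 + (34824) * (hζ.toInteger - 1) ^ 3 + (63546) * (hζ.toInteger - 1) ^ 4 + (87033) * (hζ.toInteger - 1) ^ 5 + (92462) * (hζ.toInteger - 1) ^ 6 + (77633) * (hζ.toInteger - 1) ^ 7 + (51998) * (hζ.toInteger - 1) ^ 8) ?_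
      have h := cert_11_8 (hζ.toInteger - 1)
      rw [add_sub_cancel] at h
      push_cast [coe_zu, coe_cu hζ (show Nat.Coprime 2 11 by norm_num), coe_cu hζ (show Nat.Coprime 3 11 by norm_num), coe_cu hζ (show Nat.Coprime 4 11 by norm_num), coe_cu hζ (show Nat.Coprime 5 11 by norm_num), coe_cu hζ (show Nat.Coprime 6 11 by norm_num)]
      linear_combination h

/-- Echelon system of units for `p = 13`. -/
noncomputable def echelon_13 {K : Type*} [Field K] [NumberField K] [IsCyclotomicExtension {13} ℚ K] {ζ : K}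
    (hζ : IsPrimitiveRoot ζ 13) : Echelon K hζ 6 where
  u := ![zu hζ, (zu hζ ^ 6 * cu hζ 2 ^ 1) * (1)⁻¹, (zu hζ ^ 5 * cu hζ 3 ^ 2) * (cu hζ 2 ^ 1)⁻¹, (zu hζ ^ 6 * cu hζ 2 ^ 2 * cu hζ 3 ^ 2) * (cu hζ 6 ^ 1)⁻¹, (zu hζ ^ 6 * cu hζ 3 ^ 2 * cu hζ 4 ^ 2 * cu hζ 6 ^ 1) * (cu hζ 2 ^ 1)⁻¹, (cu hζ 3 ^ 3 * cu hζ 4 ^ 1 * cu hζ 5 ^ 4) * (zu hζ ^ 2 * cu hζ 2 ^ 3 * cu hζ 6 ^ 1)⁻¹]
  L := ![1, 2, 4, 6, 8, 10]
  s := ![1, 2, 11, 6, 3, 12]
  t := ![1, 10, 8, 12, 12, 2]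
  mono := by decide
  pos := by decide
  lt := by decide
  hs := by decide
  ht := by decide
  h := by
    intro i
    fin_cases i
    · simp [zu]
    · refine level_of_cert hζ (L := 2) (by norm_num) (zu hζ ^ 6 * cu hζ 2 ^ 1) (1) 2 10
        ((55) + (50) * (hζ.toInteger - 1) + (27) * (hζ.toInteger - 1) ^ 2 + (8) * (hζ.toInteger - 1) ^ 3 + (1) * (hζ.toInteger - 1) ^ 4)
        ((1) * (hζ.toInteger - 1) + (2) * (hζ.toInteger - 1) ^ 2) ?_
      have h := cert_13_2 (hζ.toInteger - 1)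
      rw [add_sub_cancel] at h
      push_cast [coe_zu, coe_cu hζ (show Nat.Coprime 2 13 by norm_num), coe_cu hζ (show Nat.Coprime 3 13 by norm_num), coe_cu hζ (show Nat.Coprime 4 13 by norm_num), coe_cu hζ (show Nat.Coprime 5 13 by norm_num), coe_cu hζ (show Nat.Coprime 6 13 by norm_num)]
      linear_combination h
    · refine level_of_cert hζ (L := 4) (by norm_num) (zu hζ ^ 5 * cu hζ 3 ^ 2) (cu hζ 2 ^ 1) 11 8
        ((306) + (163) * (hζ.toInteger - 1) + (55) * (hζ.toInteger - 1) ^ 2 + (11) * (hζ.toInteger - 1) ^ 3 + (1) * (hζ.toInteger - 1) ^ 4)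
        ((-1) + (4) * (hζ.toInteger - 1) + (15) * (hζ.toInteger - 1) ^ 2 + (27) * (hζ.toInteger - 1) ^ 3 + (30) * (hζ.toInteger - 1) ^ 4) ?_
      have h := cert_13_4 (hζ.toInteger - 1)
      rw [add_sub_cancel] at h
      push_cast [coe_zu, coe_cu hζ (show Nat.Coprime 2 13 by norm_num), coe_cu hζ (show Nat.Coprime 3 13 by norm_num), coe_cu hζ (show Nat.Coprime 4 13 by norm_num), coe_cu hζ (show Nat.Coprime 5 13 by norm_num), coe_cu hζ (show Nat.Coprime 6 13 by norm_num)]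
      linear_combination h
    · refine level_of_cert hζ (L := 6) (by norm_num) (zu hζ ^ 6 * cu hζ 2 ^ 2 * cu hζ 3 ^ 2) (cu hζ 6 ^ 1) 6 12
        ((3320) + (1373) * (hζ.toInteger - 1) + (350) * (hζ.toInteger - 1) ^ 2 + (46) * (hζ.toInteger - 1) ^ 3 + (4) * (hζ.toInteger - 1) ^ 4 + (1) * (hζ.toInteger - 1) ^ 5)
        ((18) * (hζ.toInteger - 1) + (93) * (hζ.toInteger - 1) ^ 2 + (246) * (hζ.toInteger - 1) ^ 3 + (418) * (hζ.toInteger - 1) ^ 4 + (496) * (hζ.toInteger - 1) ^ 5 + (421) * (hζ.toInteger - 1) ^ 6) ?_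
      have h := cert_13_6 (hζ.toInteger - 1)
      rw [add_sub_cancel] at h
      push_cast [coe_zu, coe_cu hζ (show Nat.Coprime 2 13 by norm_num), coe_cu hζ (show Nat.Coprime 3 13 by norm_num), coe_cu hζ (show Nat.Coprime 4 13 by norm_num), coe_cu hζ (show Nat.Coprime 5 13 by norm_num), coe_cu hζ (show Nat.Coprime 6 13 by norm_num)]
      linear_combination h
    · refine level_of_cert hζ (L := 8) (by norm_num) (zu hζ ^ 6 * cu hζ 3 ^ 2 * cu hζ 4 ^ 2 * cu hζ 6 ^ 1) (cu hζ 2 ^ 1) 3 12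
        ((7434669) + (6421034) * (hζ.toInteger - 1) + (4676258) * (hζ.toInteger - 1) ^ 2 + (2870692) * (hζ.toInteger - 1) ^ 3 + (1480424) * (hζ.toInteger - 1) ^ 4 + (637014) * (hζ.toInteger - 1) ^ 5 + (226226) * (hζ.toInteger - 1) ^ 6 + (65230) * (hζ.toInteger - 1) ^ 7 + (14902) * (hζ.toInteger - 1) ^ 8 + (2598) * (hζ.toInteger - 1) ^ 9 + (325) * (hζ.toInteger - 1) ^ 10 + (26) * (hζ.toInteger - 1) ^ 11 + (1) * (hζ.toInteger - 1) ^ 12)
        ((66) + (897) * (hζ.toInteger - 1) + (5832) * (hζ.toInteger - 1) ^ 2 + (24300) * (hζ.toInteger - 1) ^ 3 + (72864) * (hζ.toInteger - 1) ^ 4 + (167256) * (hζ.toInteger - 1) ^ 5 + (305126) * (hζ.toInteger - 1) ^ 6 + (453207) * (hζ.toInteger - 1) ^ 7 + (556864) * (hζ.toInteger - 1) ^ 8) ?_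
      have h := cert_13_8 (hζ.toInteger - 1)
      rw [add_sub_cancel] at h
      push_cast [coe_zu, coe_cu hζ (show Nat.Coprime 2 13 by norm_num), coe_cu hζ (show Nat.Coprime 3 13 by norm_num), coe_cu hζ (show Nat.Coprime 4 13 by norm_num), coe_cu hζ (show Nat.Coprime 5 13 by norm_num), coe_cu hζ (show Nat.Coprime 6 13 by norm_num)]
      linear_combination h
    · refine level_of_cert hζ (L := 10) (by norm_num) (cu hζ 3 ^ 3 * cu hζ 4 ^ 1 * cu hζ 5 ^ 4) (zu hζ ^ 2 * cu hζ 2 ^ 3 * cu hζ 6 ^ 1) 12 2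
        ((618160674) + (464608844) * (hζ.toInteger - 1) + (304108490) * (hζ.toInteger - 1) ^ 2 + (173222428) * (hζ.toInteger - 1) ^ 3 + (85646881) * (hζ.toInteger - 1) ^ 4 + (36593561) * (hζ.toInteger - 1) ^ 5 + (13420270) * (hζ.toInteger - 1) ^ 6 + (4184575) * (hζ.toInteger - 1) ^ 7 + (1094845) * (hζ.toInteger - 1) ^ 8 + (235996) * (hζ.toInteger - 1) ^ 9 + (40829) * (hζ.toInteger - 1) ^ 10 + (5453) * (hζ.toInteger - 1) ^ 11 + (528) * (hζ.toInteger - 1) ^ 12 + (33) * (hζ.toInteger - 1) ^ 13 + (1) * (hζ.toInteger - 1) ^ 14)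
        ((5148) + (64638) * (hζ.toInteger - 1) + (401658) * (hζ.toInteger - 1) ^ 2 + (1640775) * (hζ.toInteger - 1) ^ 3 + (4938351) * (hζ.toInteger - 1) ^ 4 + (11636772) * (hζ.toInteger - 1) ^ 5 + (22277131) * (hζ.toInteger - 1) ^ 6 + (35497178) * (hζ.toInteger - 1) ^ 7 + (47866713) * (hζ.toInteger - 1) ^ 8 + (55255839) * (hζ.toInteger - 1) ^ 9 + (55038634) * (hζ.toInteger - 1) ^ 10) ?_
      have h := cert_13_10 (hζ.toInteger - 1)
      rw [add_sub_cancel] at h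
      push_cast [coe_zu, coe_cu hζ (show Nat.Coprime 2 13 by norm_num), coe_cu hζ (show Nat.Coprime 3 13 by norm_num), coe_cu hζ (show Nat.Coprime 4 13 by norm_num), coe_cu hζ (show Nat.Coprime 5 13 by norm_num), coe_cu hζ (show Nat.Coprime 6 13 by norm_num)]
      linear_combination h


end Fermat.Agent.KummerUnits
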