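import Mathlib

set_option autoImplicit false

/-!
An elementary form of Kummer's lemma for cyclotomic fields: if the unit group contains
`(p-1)/2` units in echelon form for the `(ζ - 1)`-adic filtration, then a unit congruent to a
rational integer modulo `p` is a `p`-th power.
-/

namespace Fermat.Agent.KummerUnits

open NumberField Finset NumberField.Units NumberField.InfinitePlace

variable {p : ℕ} [hp : Fact p.Prime] {K : Type*} [Field K] [NumberField K]

/-- The subgroup of `p`-th powers of units. -/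
noncomputable def powSub (p : ℕ) (K : Type*) [Field K] [NumberField K] : Subgroup (𝓞 K)ˣ :=
  (powMonoidHom p : (𝓞 K)ˣ →* (𝓞 K)ˣ).range

omit hp in
theorem mem_powSub {u : (𝓞 K)ˣ} : u ∈ powSub p K ↔ ∃ v : (𝓞 K)ˣ, v ^ p = u := Iff.rfl

theorem rank_eq (hp2 : p ≠ 2) [IsCyclotomicExtension {p} ℚ K] :
    rank K + 1 = (p - 1) / 2 := by
  have h2 := hp.out.two_le
  have h3 : 2 < p := lt_of_le_of_ne h2 (Ne.symm hp2)
  have hpos : 0 < Fintype.card (InfinitePlace K) := Fintype.card_pos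
  rw [rank, Nat.sub_add_cancel hpos, card_eq_nrRealPlaces_add_nrComplexPlaces,
    IsCyclotomicExtension.Rat.nrRealPlaces_eq_zero (n := p) K h3, zero_add,
    IsCyclotomicExtension.Rat.nrComplexPlaces_eq_totient_div_two p, Nat.totient_prime hp.out]

/-- A torsion unit is a power of `ζ` up to `p`-th powers. -/
theorem torsion_mem (hp2 : p ≠ 2) [IsCyclotomicExtension {p} ℚ K] (z : (𝓞 K)ˣ)
    (hz : IsPrimitiveRoot z p) (t : (𝓞 K)ˣ) (ht : t ∈ torsion K) :
    ∃ (k : ℕ) (v : (𝓞 K)ˣ), k < p ∧ t = z ^ k * v ^ p := by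
  have hodd : Odd p := hp.out.odd_of_ne_two hp2
  have hord : torsionOrder K = 2 * p := by
    rw [IsCyclotomicExtension.Rat.torsionOrder_eq (n := p), if_neg (Nat.not_even_iff_odd.mpr hodd)]
  have h1 : (t ^ 2) ^ p = 1 := by
    rw [← pow_mul, ← hord]
    have := pow_card_eq_one' (x := (⟨t, ht⟩ : torsion K))
    exact congrArg Subtype.val this
  have hz' : IsPrimitiveRoot (z : 𝓞 K) p := IsPrimitiveRoot.coe_units_iff.mpr hz
  have h1' : ((t : 𝓞 K) ^ 2) ^ p = 1 := by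
    have := congrArg (Units.val) h1
    simpa using this
  obtain ⟨k, hk, hk0⟩ := hz'.eq_pow_of_pow_eq_one h1'
  have hk' : z ^ k = t ^ 2 := Units.ext (by simpa using hk0)
  obtain ⟨m, hm⟩ := hodd
  refine ⟨(k * (m + 1)) % p, t⁻¹ * z ^ ((k * (m + 1)) / p), Nat.mod_lt _ hp.out.pos, ?_⟩
  have h2 : t = t ^ (p + 1) * (t⁻¹) ^ p := by
    rw [pow_succ, inv_pow]; group
  have h3 : t ^ (p + 1) = z ^ (k * (m + 1)) := by
    rw [pow_mul, hk', ← pow_mul]; congr 1; omega
  rw [mul_pow, ← pow_mul, mul_comm (t⁻¹ ^ p), ← mul_assoc, ← pow_add,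
    mul_comm _ p, Nat.mod_add_div, ← h3]
  exact h2

/-- `E / E ^ p` has at most `p ^ ((p - 1) / 2)` elements. -/
theorem card_quot_powSub (hp2 : p ≠ 2) [IsCyclotomicExtension {p} ℚ K] (z : (𝓞 K)ˣ)
    (hz : IsPrimitiveRoot z p) :
    (powSub p K).index ≠ 0 ∧ (powSub p K).index ≤ p ^ ((p - 1) / 2) := by
  have : NeZero p := ⟨hp.out.ne_zero⟩
  let f : (Fin (rank K) → Fin p) × Fin p → (𝓞 K)ˣ ⧸ powSub p K := fun e =>
    QuotientGroup.mk (z ^ (e.2 : ℕ) * ∏ i, (fundSystem K i) ^ (e.1 i : ℕ))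
  have hf : Function.Surjective f := by
    intro x
    induction x using QuotientGroup.induction_on with
    | H x =>
    obtain ⟨⟨t, e⟩, hx, -⟩ := exist_unique_eq_mul_prod K x
    simp only at hx
    obtain ⟨k, v, hk, hkv⟩ := torsion_mem hp2 z hz (t : (𝓞 K)ˣ) t.2
    have hp0 : (0 : ℤ) < p := by exact_mod_cast hp.out.pos
    have hlt : ∀ i, (e i % p).toNat < p := fun i => by
      have h1 := Int.emod_nonneg (e i) hp0.ne'
      have h2 := Int.emod_lt_of_pos (e i) hp0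
      omega
    refine ⟨⟨fun i => ⟨(e i % p).toNat, hlt i⟩, ⟨k, hk⟩⟩, ?_⟩
    rw [QuotientGroup.eq]
    refine ⟨v * ∏ i, (fundSystem K i) ^ (e i / p), ?_⟩
    simp only [powMonoidHom_apply]
    rw [eq_inv_mul_iff_mul_eq, hx, hkv, mul_pow, ← Finset.prod_pow]
    have : ∏ i, (fundSystem K i) ^ (e i) =
        (∏ i, (fundSystem K i) ^ ((e i % p).toNat)) * ∏ i, ((fundSystem K i) ^ (e i / p)) ^ p := by
      rw [← Finset.prod_mul_distrib]
      refine Finset.prod_congr rfl fun i _ => ?_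
      rw [← zpow_natCast, ← zpow_natCast, ← zpow_mul, ← zpow_add,
        Int.toNat_of_nonneg (Int.emod_nonneg _ hp0.ne'), mul_comm, Int.emod_add_mul_ediv]
    rw [this]
    exact mul_mul_mul_comm _ _ _ _
  have hfin : Finite ((𝓞 K)ˣ ⧸ powSub p K) := Finite.of_surjective f hf
  refine ⟨Subgroup.index_ne_zero_of_finite, ?_⟩
  have h := Nat.card_le_card_of_surjective f hf
  rw [← Subgroup.index] at h
  refine h.trans_eq ?_
  rw [Nat.card_prod, Nat.card_fun, Nat.card_fin, Nat.card_fin, ← pow_succ, rank_eq hp2]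

/-! ### Units congruent to integers modulo `p` -/

section cyc

variable [IsCyclotomicExtension {p} ℚ K] {ζ : K} (hζ : IsPrimitiveRoot ζ p)

include hζ in
theorem not_dvd_unit (u : (𝓞 K)ˣ) : ¬ (hζ.toInteger - 1) ∣ (u : 𝓞 K) := by
  intro h
  have h1 : (hζ.toInteger - 1) ∣ 1 := h.trans (Units.isUnit u).dvd
  have h2 : (hζ.toInteger - 1) ∣ ((1 : ℤ) : 𝓞 K) := by simpa using h1
  rw [IsCyclotomicExtension.Rat.zeta_sub_one_dvd_intCast_iff' p hζ] at h2
  have h3 := Int.le_of_dvd one_pos h2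
  have := hp.out.two_le
  omega

theorem zeta_sub_one_dvd_p : (hζ.toInteger - 1) ∣ (p : 𝓞 K) := by
  have h := (IsCyclotomicExtension.Rat.zeta_sub_one_dvd_intCast_iff' p hζ (n := (p : ℤ))).mpr
    dvd_rfl
  exact_mod_cast h

omit [NumberField K] [IsCyclotomicExtension {p} ℚ K] in
theorem zeta_sub_one_pow_dvd_p {m : ℕ} (hm : m ≤ p - 1) :
    (hζ.toInteger - 1) ^ m ∣ (p : 𝓞 K) :=
  (pow_dvd_pow _ hm).trans
    (IsCyclotomicExtension.Rat.associated_zeta_sub_one_pow_prime p hζ).dvd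

/-- Every `p`-th power is congruent to a rational integer modulo `p`. -/
theorem exists_int_pow (x : 𝓞 K) : ∃ n : ℤ, (p : 𝓞 K) ∣ x ^ p - n := by
  have hζ := IsCyclotomicExtension.zeta_spec p ℚ K
  have hx : x ∈ Algebra.adjoin ℤ {hζ.toInteger} := by
    rw [IsCyclotomicExtension.Rat.adjoin_singleton_eq_top hζ]
    trivial
  induction hx using Algebra.adjoin_induction with
  | mem x hx =>
    rw [Set.mem_singleton_iff] at hx
    subst hx
    refine ⟨1, ?_⟩
    rw [hζ.toInteger_isPrimitiveRoot.pow_eq_one]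
    simp
  | algebraMap r =>
    refine ⟨r ^ p, ?_⟩
    simp
  | add x y _ _ hx hy =>
    obtain ⟨n, hn⟩ := hx
    obtain ⟨m, hm⟩ := hy
    obtain ⟨r, hr⟩ := exists_add_pow_prime_eq hp.out x y
    refine ⟨n + m, ?_⟩
    rw [hr]
    push_cast
    have : x ^ p + y ^ p + (p : 𝓞 K) * x * y * r - (n + m) =
      (x ^ p - n) + (y ^ p - m) + (p : 𝓞 K) * (x * y * r) := by ring
    rw [this]
    exact dvd_add (dvd_add hn hm) (dvd_mul_right _ _)
  | mul x y _ _ hx hy =>
    obtain ⟨n, hn⟩ := hx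
    obtain ⟨m, hm⟩ := hy
    refine ⟨n * m, ?_⟩
    rw [mul_pow]
    push_cast
    have : x ^ p * y ^ p - n * m = (x ^ p - n) * y ^ p + n * (y ^ p - m) := by ring
    rw [this]
    exact dvd_add (hn.mul_right _) (hm.mul_left _)

variable (p K) in
/-- The subgroup of units congruent to a rational integer modulo `p`. -/
def intSub : Subgroup (𝓞 K)ˣ where
  carrier := {u | ∃ n : ℤ, (p : 𝓞 K) ∣ (u : 𝓞 K) - n}
  one_mem' := ⟨1, by simp⟩
  mul_mem' := by
    rintro a b ⟨n, hn⟩ ⟨m, hm⟩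
    refine ⟨n * m, ?_⟩
    push_cast
    have : (a : 𝓞 K) * b - n * m = (a - n) * b + n * (b - m) := by ring
    rw [this]
    exact dvd_add (hn.mul_right _) (hm.mul_left _)
  inv_mem' := by
    rintro a ⟨n, hn⟩
    have hζ := IsCyclotomicExtension.zeta_spec p ℚ K
    have hpn : ¬ (p : ℤ) ∣ n := by
      rintro ⟨k, rfl⟩
      apply not_dvd_unit hζ a
      have h1 : (p : 𝓞 K) ∣ (a : 𝓞 K) := by
        have h2 : (a : 𝓞 K) = (a - ((p * k : ℤ) : 𝓞 K)) + (p : 𝓞 K) * k := by push_cast; ring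
        rw [h2]
        exact dvd_add hn (dvd_mul_right _ _)
      exact (zeta_sub_one_dvd_p hζ).trans h1
    have hcop : IsCoprime n (p : ℤ) := by
      rw [isCoprime_comm]
      exact (Nat.prime_iff_prime_int.mp hp.out).coprime_iff_not_dvd.mpr hpn
    obtain ⟨m, k, hmk⟩ := hcop
    refine ⟨m, ?_⟩
    have h1 : ((a⁻¹ : (𝓞 K)ˣ) : 𝓞 K) - m = (a⁻¹ : (𝓞 K)ˣ) * ((p : 𝓞 K) * k - m * (a - n)) := by
      have h2 : ((a⁻¹ : (𝓞 K)ˣ) : 𝓞 K) * a = 1 := by simp
      have h3 : (m : 𝓞 K) * n + k * p = 1 := by exact_mod_cast congrArg (Int.cast : ℤ → 𝓞 K) hmk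
      linear_combination (m : 𝓞 K) * h2 - ((a⁻¹ : (𝓞 K)ˣ) : 𝓞 K) * h3
    rw [h1]
    exact Dvd.dvd.mul_left (dvd_sub (dvd_mul_right _ _) (hn.mul_left _)) _

theorem powSub_le_intSub : powSub p K ≤ intSub p K := by
  rintro u ⟨v, rfl⟩
  obtain ⟨n, hn⟩ := exists_int_pow (p := p) (v : 𝓞 K)
  exact ⟨n, by simpa using hn⟩

variable (K) in
/-- Units in echelon form for the `(ζ - 1)`-adic filtration. -/
structure Echelon (hζ : IsPrimitiveRoot ζ p) (r : ℕ) where
  /-- the units -/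
  u : Fin r → (𝓞 K)ˣ
  /-- the levels -/
  L : Fin r → ℕ
  /-- constant coefficients -/
  s : Fin r → ℤ
  /-- leading coefficients -/
  t : Fin r → ℤ
  mono : StrictMono L
  pos : ∀ i, 1 ≤ L i
  lt : ∀ i, L i + 1 ≤ p - 1
  hs : ∀ i, ¬ (p : ℤ) ∣ s i
  ht : ∀ i, ¬ (p : ℤ) ∣ t i
  h : ∀ i, (hζ.toInteger - 1) ^ (L i + 1) ∣
    (u i : 𝓞 K) - (s i + t i * (hζ.toInteger - 1) ^ (L i))

/-- The key echelon computation. -/
theorem Echelon.injective {hζ : IsPrimitiveRoot ζ p} {r : ℕ} (E : Echelon K hζ r)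
    (a b : Fin r → ℕ) (ha : ∀ i, a i < p) (hb : ∀ i, b i < p) (w : (𝓞 K)ˣ) (hw : w ∈ intSub p K)
    (h : ∏ i, E.u i ^ a i = (∏ i, E.u i ^ b i) * w) : a = b := by
  funext i
  induction hi : (i : ℕ) using Nat.strong_induction_on generalizing i with
  | _ m ih =>
  subst hi
  obtain ⟨n, hn⟩ := hw
  set x : 𝓞 K := hζ.toInteger - 1 with hx
  set q : 𝓞 K →+* 𝓞 K ⧸ Ideal.span {x ^ (E.L i + 1)} := Ideal.Quotient.mk _ with hq
  have hq0 : ∀ y : 𝓞 K, q y = 0 ↔ x ^ (E.L i + 1) ∣ y := fun y => by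
    rw [hq, Ideal.Quotient.eq_zero_iff_mem, Ideal.mem_span_singleton]
  have hqe : ∀ y z : 𝓞 K, q y = q z ↔ x ^ (E.L i + 1) ∣ y - z := fun y z => by
    rw [← sub_eq_zero, ← map_sub, hq0]
  -- cancel the lower factors
  have hcancel : ∏ j ∈ Finset.univ.filter (fun j => i ≤ j), E.u j ^ a j =
      (∏ j ∈ Finset.univ.filter (fun j => i ≤ j), E.u j ^ b j) * w := by
    rw [← Finset.prod_filter_mul_prod_filter_not Finset.univ (fun j => i ≤ j)
        (fun j => E.u j ^ a j),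
      ← Finset.prod_filter_mul_prod_filter_not Finset.univ (fun j => i ≤ j)
        (fun j => E.u j ^ b j)] at h
    have hlow : ∏ j ∈ Finset.univ.filter (fun j => ¬ i ≤ j), E.u j ^ a j =
        ∏ j ∈ Finset.univ.filter (fun j => ¬ i ≤ j), E.u j ^ b j := by
      refine Finset.prod_congr rfl fun j hj => ?_
      rw [Finset.mem_filter] at hj
      have hlt : j < i := not_le.mp hj.2
      rw [ih j hlt j rfl]
    rw [hlow] at h
    have h' : (∏ j ∈ Finset.univ.filter (fun j => i ≤ j), E.u j ^ a j) *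
        (∏ j ∈ Finset.univ.filter (fun j => ¬ i ≤ j), E.u j ^ b j) =
        ((∏ j ∈ Finset.univ.filter (fun j => i ≤ j), E.u j ^ b j) * w) *
        (∏ j ∈ Finset.univ.filter (fun j => ¬ i ≤ j), E.u j ^ b j) := by
      rw [h]; ac_rfl
    exact mul_right_cancel h'
  have hsplit : ∀ c : Fin r → ℕ, ∏ j ∈ Finset.univ.filter (fun j => i ≤ j), E.u j ^ c j =
      E.u i ^ c i * ∏ j ∈ Finset.univ.filter (fun j => i < j), E.u j ^ c j := by
    intro c
    have : Finset.univ.filter (fun j => i ≤ j) =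
        insert i (Finset.univ.filter (fun j : Fin r => i < j)) := by
      ext j
      simp only [Finset.mem_filter, Finset.mem_univ, true_and, Finset.mem_insert]
      rw [le_iff_eq_or_lt, eq_comm]
    rw [this, Finset.prod_insert (by simp)]
  rw [hsplit, hsplit] at hcancel
  -- the images in the quotient
  have hy2 : q ((E.t i : 𝓞 K) * x ^ (E.L i)) ^ 2 = 0 := by
    rw [← map_pow, hq0]
    have := E.pos i
    have h2 : x ^ (E.L i + 1) ∣ x ^ (2 * E.L i) := pow_dvd_pow _ (by omega)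
    have h3 : ((E.t i : 𝓞 K) * x ^ (E.L i)) ^ 2 = (E.t i : 𝓞 K) ^ 2 * x ^ (2 * E.L i) := by ring
    rw [h3]
    exact h2.mul_left _
  have hpow : ∀ m : ℕ, q (E.u i) ^ m =
      q ((E.s i ^ m : ℤ) + (m * E.s i ^ (m - 1) * E.t i : ℤ) * x ^ (E.L i)) := by
    intro m
    have h1 : q (E.u i) = q (E.s i : 𝓞 K) + q ((E.t i : 𝓞 K) * x ^ (E.L i)) := by
      rw [← map_add, hqe]
      exact E.h i
    obtain ⟨k, hk⟩ := Polynomial.powAddExpansion (q (E.s i : 𝓞 K))
      (q ((E.t i : 𝓞 K) * x ^ (E.L i))) m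
    rw [h1, hk, hy2, mul_zero, add_zero]
    push_cast
    simp only [map_add, map_mul, map_pow, map_natCast, map_intCast]
    ring
  have hrest : ∀ c : Fin r → ℕ, q ((∏ j ∈ Finset.univ.filter (fun j => i < j), E.u j ^ c j :
      (𝓞 K)ˣ) : 𝓞 K) =
      q ((∏ j ∈ Finset.univ.filter (fun j => i < j), E.s j ^ c j : ℤ) : 𝓞 K) := by
    intro c
    push_cast
    rw [map_prod, map_prod]
    refine Finset.prod_congr rfl fun j hj => ?_
    rw [map_pow, map_pow]
    congr 1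
    rw [Finset.mem_filter] at hj
    rw [hqe]
    have hL : E.L i < E.L j := E.mono hj.2
    have h1 := E.h j
    have h2 : (E.u j : 𝓞 K) - (E.s j : 𝓞 K) =
        ((E.u j : 𝓞 K) - (E.s j + E.t j * x ^ (E.L j))) + E.t j * x ^ (E.L j) := by ring
    rw [h2]
    exact dvd_add ((pow_dvd_pow _ (by omega)).trans h1) ((pow_dvd_pow _ (by omega)).mul_left _)
  have hqw : q (w : 𝓞 K) = q (n : 𝓞 K) := by
    rw [hqe]
    exact (zeta_sub_one_pow_dvd_p hζ (E.lt i)).trans hn
  set A : ℤ := ∏ j ∈ Finset.univ.filter (fun j => i < j), E.s j ^ a j with hA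
  set B : ℤ := ∏ j ∈ Finset.univ.filter (fun j => i < j), E.s j ^ b j with hB
  have hmain := congrArg (fun v : (𝓞 K)ˣ => q (v : 𝓞 K)) hcancel
  simp only [Units.val_mul, map_mul, Units.val_pow_eq_pow_val, map_pow] at hmain
  rw [hpow, hpow, hrest, hrest, hqw, ← hA, ← hB, ← map_mul, ← map_mul, ← map_mul, hqe] at hmain
  have hpr : Prime (p : ℤ) := Nat.prime_iff_prime_int.mp hp.out
  -- constant term
  have hc0 : (p : ℤ) ∣ E.s i ^ a i * A - E.s i ^ b i * B * n := by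
    rw [← IsCyclotomicExtension.Rat.zeta_sub_one_dvd_intCast_iff' p hζ]
    have h1 : x ∣ x ^ (E.L i + 1) := dvd_pow_self _ (by omega)
    have h2 : x ∣ x ^ (E.L i) := dvd_pow_self _ (by have := E.pos i; omega)
    have h3 := h1.trans hmain
    have h4 : ((E.s i ^ a i * A - E.s i ^ b i * B * n : ℤ) : 𝓞 K) =
        ((((E.s i ^ a i : ℤ) + (a i * E.s i ^ (a i - 1) * E.t i : ℤ) * x ^ (E.L i)) * (A : 𝓞 K) -
        ((E.s i ^ b i : ℤ) + (b i * E.s i ^ (b i - 1) * E.t i : ℤ) * x ^ (E.L i)) * (B : 𝓞 K) * n))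
        - x ^ (E.L i) * (((a i * E.s i ^ (a i - 1) * E.t i : ℤ) : 𝓞 K) * A
          - ((b i * E.s i ^ (b i - 1) * E.t i : ℤ) : 𝓞 K) * B * n) := by
      push_cast; ring
    rw [h4]
    exact dvd_sub h3 (h2.mul_right _)
  -- linear term
  have hc1 : (p : ℤ) ∣ (a i * E.s i ^ (a i - 1) * E.t i) * A
      - (b i * E.s i ^ (b i - 1) * E.t i) * B * n := by
    rw [← IsCyclotomicExtension.Rat.zeta_sub_one_dvd_intCast_iff' p hζ]
    have h3 : x ^ (E.L i + 1) ∣ ((E.s i ^ a i * A - E.s i ^ b i * B * n : ℤ) : 𝓞 K) := by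
      obtain ⟨k, hk⟩ := hc0
      rw [hk]
      push_cast
      exact (zeta_sub_one_pow_dvd_p hζ (E.lt i)).mul_right _
    have h5 : x ^ (E.L i + 1) ∣ x ^ (E.L i) * (((a i * E.s i ^ (a i - 1) * E.t i) * A
      - (b i * E.s i ^ (b i - 1) * E.t i) * B * n : ℤ) : 𝓞 K) := by
      have h4 : x ^ (E.L i) * (((a i * E.s i ^ (a i - 1) * E.t i) * A
        - (b i * E.s i ^ (b i - 1) * E.t i) * B * n : ℤ) : 𝓞 K) =
        ((((E.s i ^ a i : ℤ) + (a i * E.s i ^ (a i - 1) * E.t i : ℤ) * x ^ (E.L i)) * (A : 𝓞 K) -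
        ((E.s i ^ b i : ℤ) + (b i * E.s i ^ (b i - 1) * E.t i : ℤ) * x ^ (E.L i)) * (B : 𝓞 K) * n))
        - ((E.s i ^ a i * A - E.s i ^ b i * B * n : ℤ) : 𝓞 K) := by
        push_cast; ring
      rw [h4]
      exact dvd_sub hmain h3
    have hx0 : x ^ (E.L i) ≠ 0 := by
      apply pow_ne_zero
      rw [hx]
      exact hζ.zeta_sub_one_prime'.ne_zero
    rw [pow_succ] at h5
    exact (mul_dvd_mul_iff_left hx0).mp h5
  -- combine
  have hc2 : (p : ℤ) ∣ E.s i * ((a i * E.s i ^ (a i - 1) * E.t i) * A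
      - (b i * E.s i ^ (b i - 1) * E.t i) * B * n) := hc1.mul_left _
  have hsm : ∀ m : ℕ, E.s i * (m * E.s i ^ (m - 1) * E.t i) = m * E.t i * E.s i ^ m := by
    intro m
    rcases m with _ | m
    · simp
    · rw [Nat.add_sub_cancel, pow_succ]; ring
  have hc3 : (p : ℤ) ∣ ((a i : ℤ) - b i) * (E.t i * (E.s i ^ a i * A)) := by
    have h1 : ((a i : ℤ) - b i) * (E.t i * (E.s i ^ a i * A)) =
        E.s i * ((a i * E.s i ^ (a i - 1) * E.t i) * A
          - (b i * E.s i ^ (b i - 1) * E.t i) * B * n)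
        - (b i * E.t i) * (E.s i ^ a i * A - E.s i ^ b i * B * n) := by
      have h2 := hsm (a i)
      have h3 := hsm (b i)
      linear_combination (-A) * h2 + (B * n) * h3
    rw [h1]
    exact dvd_sub hc2 (hc0.mul_left _)
  have hA0 : ¬ (p : ℤ) ∣ A := by
    rw [hA, hpr.dvd_finsetProd_iff]
    rintro ⟨j, -, hj⟩
    exact E.hs j (hpr.dvd_of_dvd_pow hj)
  rcases hpr.dvd_or_dvd hc3 with h1 | h1
  · have h2 := Int.eq_zero_of_abs_lt_dvd h1 (by
      have := ha i; have := hb i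
      rw [abs_lt]; constructor <;> omega)
    omega
  · exfalso
    rcases hpr.dvd_or_dvd h1 with h2 | h2
    · exact E.ht i h2
    · rcases hpr.dvd_or_dvd h2 with h3 | h3
      · exact E.hs i (hpr.dvd_of_dvd_pow h3)
      · exact hA0 h3

/-- Kummer's lemma from an echelon system of `(p - 1) / 2` units. -/
theorem Echelon.kummer {hζ : IsPrimitiveRoot ζ p} (hp2 : p ≠ 2)
    (E : Echelon K hζ ((p - 1) / 2)) (w : (𝓞 K)ˣ) (hw : ∃ n : ℤ, (p : 𝓞 K) ∣ (w : 𝓞 K) - n) :
    ∃ v : (𝓞 K)ˣ, w = v ^ p := by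
  have : NeZero p := ⟨hp.out.ne_zero⟩
  have hz : IsPrimitiveRoot (hζ.toInteger_isPrimitiveRoot.isUnit hp.out.ne_zero).unit p := by
    rw [← IsPrimitiveRoot.coe_units_iff]
    exact hζ.toInteger_isPrimitiveRoot
  obtain ⟨h0, h1⟩ := card_quot_powSub (K := K) hp2 _ hz
  have hle := powSub_le_intSub (p := p) (K := K)
  have hmul := Subgroup.relIndex_mul_index hle
  have hinj : Function.Injective (fun e : Fin ((p - 1) / 2) → Fin p =>
      (QuotientGroup.mk (∏ i, E.u i ^ (e i : ℕ)) : (𝓞 K)ˣ ⧸ intSub p K)) := by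
    intro a b hab
    simp only at hab
    rw [QuotientGroup.eq] at hab
    have := E.injective (fun i => (b i : ℕ)) (fun i => (a i : ℕ)) (fun i => (b i).2)
      (fun i => (a i).2) _ hab (by rw [mul_inv_cancel_left])
    funext i
    exact Fin.ext (congrFun this i).symm
  have hfin : (intSub p K).index ≠ 0 := by
    intro h
    rw [h, mul_zero] at hmul
    exact h0 hmul.symm
  have hfi : (intSub p K).FiniteIndex := ⟨hfin⟩
  have hfin' : Finite ((𝓞 K)ˣ ⧸ intSub p K) := Subgroup.finite_quotient_of_finiteIndex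
  have h2 := Nat.card_le_card_of_injective _ hinj
  rw [Nat.card_fun, Nat.card_fin, Nat.card_fin, ← Subgroup.index] at h2
  have h3 : (powSub p K).relIndex (intSub p K) = 1 := by
    have h4 : (powSub p K).relIndex (intSub p K) * (intSub p K).index ≤ 1 * (intSub p K).index := by
      rw [hmul, one_mul]
      exact h1.trans h2
    have h5 := Nat.le_of_mul_le_mul_right h4 (Nat.pos_of_ne_zero hfin)
    have h6 : (powSub p K).relIndex (intSub p K) ≠ 0 := by
      intro h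
      rw [h, zero_mul] at hmul
      exact h0 hmul.symm
    omega
  rw [Subgroup.relIndex_eq_one] at h3
  obtain ⟨v, hv⟩ := h3 (show w ∈ intSub p K from hw)
  exact ⟨v, hv.symm⟩

end cyc

end Fermat.Agent.KummerUnits
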